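/-
S15lib / Dict / Unif / Wp  (helper2) — Project E, block DICT (EA)(U): analytic facts on `℘`.

* `deriv_derivWeierstrassP` : `℘'' = 6 ℘² - g₂/2` off the lattice (differentiate the Weierstrass
  equation, divide by `℘'` with the identity theorem);
* `hasDerivAt_wp`, `hasDerivAt_wp'`.
-/
import Mathlib
import Fermat.Agent.ProgramR.LevelOne.WPUnique

set_option autoImplicit false
set_option linter.unusedSectionVars false
set_option linter.style.haveILetI false

noncomputable section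

open Filter Topology
open scoped PeriodPair

namespace Fermat.Agent.S15lib.Dict.Unif

open Fermat.Agent.ProgramR.LevelOne

variable (L : PeriodPair)

/-- the complement of a countable subset of `ℂ` is preconnected -/
theorem isPreconnected_compl_of_countable {s : Set ℂ} (hs : s.Countable) : IsPreconnected sᶜ := by
  have hr : 1 < Module.rank ℝ ℂ := by
    rw [Complex.rank_real_complex]; norm_num
  exact (hs.isPathConnected_compl_of_one_lt_rank hr).isConnected.isPreconnected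

theorem isPreconnected_compl_lattice : IsPreconnected (L.lattice : Set ℂ)ᶜ :=
  isPreconnected_compl_of_countable (countable_lattice L)

theorem isOpen_compl_lattice : IsOpen (L.lattice : Set ℂ)ᶜ := L.isClosed_lattice.isOpen_compl

/-- `℘'` does not vanish identically -/
theorem exists_derivWeierstrassP_ne_zero : ∃ z : ℂ, z ∉ L.lattice ∧ ℘'[L] z ≠ 0 := by
  have hc : ContinuousAt (wpQ L) 0 := (analyticAt_wpQ L).continuousAt
  have h0 : wpQ L 0 ≠ 0 := by
    unfold wpQ; norm_num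
  have hev : ∀ᶠ z in 𝓝 (0 : ℂ), wpQ L z ≠ 0 := hc.eventually_ne h0
  have hfreq : ∃ᶠ z in 𝓝 (0 : ℂ), z ≠ 0 := by
    have h1 : ∃ᶠ z in 𝓝[≠] (0 : ℂ), z ≠ 0 :=
      (eventually_mem_nhdsWithin (a := (0 : ℂ)) (s := {0}ᶜ)).frequently
    exact h1.filter_mono nhdsWithin_le_nhds
  obtain ⟨z, ⟨hz1, hz2⟩, hz0⟩ := ((hev.and (eventually_not_mem_lattice L)).and_frequently hfreq).exists
  refine ⟨z, hz2 hz0, fun h => hz1 ?_⟩
  rw [wpQ_eq L hz0, h, mul_zero]

theorem hasDerivAt_wp {z : ℂ} (hz : z ∉ L.lattice) : HasDerivAt ℘[L] (℘'[L] z) z := by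
  have hd : DifferentiableAt ℂ ℘[L] z := (L.analyticOnNhd_weierstrassP z hz).differentiableAt
  have := hd.hasDerivAt
  rwa [L.deriv_weierstrassP] at this

/-- **`℘'' = 6 ℘² - g₂/2`** -/
theorem deriv_derivWeierstrassP {z : ℂ} (hz : z ∉ L.lattice) :
    deriv ℘'[L] z = 6 * ℘[L] z ^ 2 - L.g₂ / 2 := by
  set U : Set ℂ := (L.lattice : Set ℂ)ᶜ with hU
  have hUo : IsOpen U := isOpen_compl_lattice L
  have hA' : AnalyticOnNhd ℂ ℘'[L] U := L.analyticOnNhd_derivWeierstrassP
  have hA : AnalyticOnNhd ℂ ℘[L] U := L.analyticOnNhd_weierstrassP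
  have hA'' : AnalyticOnNhd ℂ (deriv ℘'[L]) U := hA'.deriv
  -- `F = ℘'' - 6℘² + g₂/2`
  set F : ℂ → ℂ := fun z => deriv ℘'[L] z - 6 * ℘[L] z ^ 2 + L.g₂ / 2 with hF
  have hFA : AnalyticOnNhd ℂ F U := by
    intro w hw
    have h1 := hA'' w hw
    have h2 := hA w hw
    exact (h1.sub ((analyticAt_const).mul (h2.pow 2))).add analyticAt_const
  have hFG : ∀ w ∈ U, F w * ℘'[L] w = 0 := by
    intro w hw
    have hwl : w ∉ L.lattice := hw
    -- the relation vanishes near `w`
    have hrel : (fun u => ℘'[L] u ^ 2 - (4 * ℘[L] u ^ 3 - L.g₂ * ℘[L] u - L.g₃)) =ᶠ[𝓝 w]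
        fun _ => (0 : ℂ) := by
      filter_upwards [hUo.mem_nhds hw] with u hu
      rw [L.derivWeierstrassP_sq u hu, sub_self]
    have hd1 : HasDerivAt ℘[L] (℘'[L] w) w := hasDerivAt_wp L hwl
    have hd2 : HasDerivAt ℘'[L] (deriv ℘'[L] w) w := (hA' w hw).differentiableAt.hasDerivAt
    have hd : HasDerivAt (fun u => ℘'[L] u ^ 2 - (4 * ℘[L] u ^ 3 - L.g₂ * ℘[L] u - L.g₃))
        (2 * ℘'[L] w ^ (2 - 1) * deriv ℘'[L] w -
          (4 * (3 * ℘[L] w ^ (3 - 1) * ℘'[L] w) - L.g₂ * ℘'[L] w - 0)) w :=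
      (hd2.pow 2).sub ((((hd1.pow 3).const_mul 4).sub (hd1.const_mul L.g₂)).sub
        (hasDerivAt_const w L.g₃))
    have h0 := hd.unique ((hasDerivAt_const w (0 : ℂ)).congr_of_eventuallyEq hrel)
    simp only [hF]
    norm_num at h0
    linear_combination h0 / 2
  rcases AnalyticOnNhd.eq_zero_or_eq_zero_of_mul_eq_zero hFA hA' hFG
    (isPreconnected_compl_lattice L) with h | h
  · have := h z hz
    simp only [hF] at this
    linear_combination this
  · obtain ⟨w, hw, hw'⟩ := exists_derivWeierstrassP_ne_zero L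
    exact absurd (h w hw) hw'

theorem hasDerivAt_wp' {z : ℂ} (hz : z ∉ L.lattice) :
    HasDerivAt ℘'[L] (6 * ℘[L] z ^ 2 - L.g₂ / 2) z := by
  have hd : DifferentiableAt ℂ ℘'[L] z :=
    (L.analyticOnNhd_derivWeierstrassP z hz).differentiableAt
  have := hd.hasDerivAt
  rwa [deriv_derivWeierstrassP L hz] at this

end Fermat.Agent.S15lib.Dict.Unif
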