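/-
S15lib / Dict / Unif / Add  (helper2) — Project E, block DICT (EA)(U): the addition theorem of `℘`.

`addX` : for `z, w, z + w ∉ Λ`:  `(℘'z - ℘'w)² = 4 (℘z + ℘w + ℘(z+w)) (℘z - ℘w)²`.

Proof (no residues, no Abel): for fixed `s ∉ Λ` the function
`ψ(w) = (℘'(s-w) - ℘'(w))² / (4 (℘(s-w) - ℘(w))²) - ℘(s-w) - ℘(w)` has derivative `0` (algebra with
`℘'' = 6℘² - g₂/2` and the Weierstrass equation), extends analytically to `w = 0` with value
`℘(s)` (Laurent data `wpP`, `wpQ` of `℘`, `℘'` at `0`), hence `ψ = ℘(s)` near `0`; the polynomial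
form of this identity is analytic on the connected set `{w ∉ Λ, s - w ∉ Λ}`, hence holds there.
-/
import Mathlib
import Fermat.Agent.S15lib.Dict.Unif.Wp

set_option autoImplicit false
set_option linter.unusedSectionVars false
set_option linter.style.haveILetI false

noncomputable section

open Filter Topology
open scoped PeriodPair

namespace Fermat.Agent.S15lib.Dict.Unif

open Fermat.Agent.ProgramR.LevelOne

variable (L : PeriodPair)

/-- the algebraic `x`-coordinate of the sum -/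
def psiX (s w : ℂ) : ℂ :=
  (℘'[L] (s - w) - ℘'[L] w) ^ 2 / (4 * (℘[L] (s - w) - ℘[L] w) ^ 2) - ℘[L] (s - w) - ℘[L] w

theorem hasDerivAt_wp_sub {s w : ℂ} (h : s - w ∉ L.lattice) :
    HasDerivAt (fun w => ℘[L] (s - w)) (-℘'[L] (s - w)) w := by
  have h1 : HasDerivAt (fun w : ℂ => s - w) (-1) w := by
    simpa using (hasDerivAt_id w).const_sub s
  have h2 : HasDerivAt (fun w => ℘[L] (s - w)) (℘'[L] (s - w) * (-1)) w :=
    (hasDerivAt_wp L h).comp w h1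
  exact h2.congr_deriv (by ring)

theorem hasDerivAt_wp'_sub {s w : ℂ} (h : s - w ∉ L.lattice) :
    HasDerivAt (fun w => ℘'[L] (s - w)) (-(6 * ℘[L] (s - w) ^ 2 - L.g₂ / 2)) w := by
  have h1 : HasDerivAt (fun w : ℂ => s - w) (-1) w := by
    simpa using (hasDerivAt_id w).const_sub s
  have h2 : HasDerivAt (fun w => ℘'[L] (s - w)) ((6 * ℘[L] (s - w) ^ 2 - L.g₂ / 2) * (-1)) w :=
    (hasDerivAt_wp' L h).comp w h1
  exact h2.congr_deriv (by ring)

/-- `ψ' = 0` -/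
theorem hasDerivAt_psiX {s w : ℂ} (hw : w ∉ L.lattice) (hsw : s - w ∉ L.lattice)
    (hne : ℘[L] (s - w) ≠ ℘[L] w) : HasDerivAt (psiX L s) 0 w := by
  have hx₁ := hasDerivAt_wp_sub L hsw
  have hy₁ := hasDerivAt_wp'_sub L hsw
  have hx₂ := hasDerivAt_wp L hw
  have hy₂ := hasDerivAt_wp' L hw
  have e₁ := L.derivWeierstrassP_sq (s - w) hsw
  have e₂ := L.derivWeierstrassP_sq w hw
  have hM : ℘[L] (s - w) - ℘[L] w ≠ 0 := sub_ne_zero.2 hne
  have hN := hy₁.sub hy₂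
  have hMd := hx₁.sub hx₂
  have hden : (4 : ℂ) * (℘[L] (s - w) - ℘[L] w) ^ 2 ≠ 0 :=
    mul_ne_zero (by norm_num) (pow_ne_zero 2 hM)
  have hquot := ((hN.pow 2).div ((hMd.pow 2).const_mul 4) hden)
  have htot := (hquot.sub hx₁).sub hx₂
  refine (htot.congr_deriv ?_)
  simp only [Pi.sub_apply, Pi.pow_apply]
  generalize ℘[L] (s - w) = x₁ at *
  generalize ℘'[L] (s - w) = y₁ at *
  generalize ℘[L] w = x₂ at *
  generalize ℘'[L] w = y₂ at *
  field_simp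
  push_cast
  linear_combination (4 * (y₁ - y₂) * (x₁ - x₂)) * e₁ - (4 * (y₁ - y₂) * (x₁ - x₂)) * e₂

/-- the analytic extension of `ψ` to `w = 0` -/
def psiT (s w : ℂ) : ℂ :=
  (8 * ℘[L] (s - w) * wpP L w ^ 2 - 2 * ℘'[L] (s - w) * w * wpQ L w
      - (L.g₂ + 4 * ℘[L] (s - w) ^ 2) * w ^ 2 * wpP L w + (℘'[L] (s - w) ^ 2 - L.g₃) * w ^ 4) /
    (4 * (℘[L] (s - w) * w ^ 2 - wpP L w) ^ 2) - ℘[L] (s - w)

theorem psiT_zero (s : ℂ) : psiT L s 0 = ℘[L] s := by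
  have hP : wpP L 0 = 1 := by unfold wpP; simp
  unfold psiT
  rw [hP]
  simp only [sub_zero, ne_eq, OfNat.ofNat_ne_zero, not_false_eq_true, zero_pow, mul_zero, zero_sub,
    one_pow, mul_one, zero_mul, sub_zero, add_zero, even_two, Even.neg_pow]
  field_simp
  ring

theorem psiT_eq {s w : ℂ} (hw0 : w ≠ 0) (hw : w ∉ L.lattice)
    (hne : ℘[L] (s - w) ≠ ℘[L] w) : psiT L s w = psiX L s w := by
  have e₂ := L.derivWeierstrassP_sq w hw
  have hP := wpP_eq L hw0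
  have hQ := wpQ_eq L hw0
  unfold psiT psiX
  rw [hP, hQ]
  have hM : ℘[L] (s - w) - ℘[L] w ≠ 0 := sub_ne_zero.2 hne
  have hden : ℘[L] (s - w) * w ^ 2 - w ^ 2 * ℘[L] w ≠ 0 := by
    have : ℘[L] (s - w) * w ^ 2 - w ^ 2 * ℘[L] w = w ^ 2 * (℘[L] (s - w) - ℘[L] w) := by ring
    rw [this]
    exact mul_ne_zero (pow_ne_zero 2 hw0) hM
  generalize ℘[L] (s - w) = x₁ at *
  generalize ℘'[L] (s - w) = y₁ at *
  generalize ℘[L] w = x₂ at *
  generalize ℘'[L] w = y₂ at *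
  field_simp
  linear_combination (-1 : ℂ) * e₂

theorem analyticAt_wp_sub {s : ℂ} (hs : s ∉ L.lattice) :
    AnalyticAt ℂ (fun w => ℘[L] (s - w)) 0 := by
  have h1 : AnalyticAt ℂ (fun w : ℂ => s - w) 0 := analyticAt_const.sub analyticAt_id
  have h2 : AnalyticAt ℂ ℘[L] (s - 0) := by
    rw [sub_zero]; exact L.analyticOnNhd_weierstrassP s hs
  exact h2.fun_comp h1

theorem analyticAt_wp'_sub {s : ℂ} (hs : s ∉ L.lattice) :
    AnalyticAt ℂ (fun w => ℘'[L] (s - w)) 0 := by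
  have h1 : AnalyticAt ℂ (fun w : ℂ => s - w) 0 := analyticAt_const.sub analyticAt_id
  have h2 : AnalyticAt ℂ ℘'[L] (s - 0) := by
    rw [sub_zero]; exact L.analyticOnNhd_derivWeierstrassP s hs
  exact h2.fun_comp h1

theorem analyticAt_psiT {s : ℂ} (hs : s ∉ L.lattice) : AnalyticAt ℂ (psiT L s) 0 := by
  have hx := analyticAt_wp_sub L hs
  have hy := analyticAt_wp'_sub L hs
  have hP := analyticAt_wpP L
  have hQ := analyticAt_wpQ L
  have hid : AnalyticAt ℂ (fun w : ℂ => w) 0 := analyticAt_id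
  have hP0 : wpP L 0 = 1 := by unfold wpP; simp
  have hnum : AnalyticAt ℂ (fun w => 8 * ℘[L] (s - w) * wpP L w ^ 2
      - 2 * ℘'[L] (s - w) * w * wpQ L w
      - (L.g₂ + 4 * ℘[L] (s - w) ^ 2) * w ^ 2 * wpP L w + (℘'[L] (s - w) ^ 2 - L.g₃) * w ^ 4) 0 :=
    ((((analyticAt_const.mul hx).mul (hP.pow 2)).sub (((analyticAt_const.mul hy).mul hid).mul hQ)).sub
      (((analyticAt_const.add (analyticAt_const.mul (hx.pow 2))).mul (hid.pow 2)).mul hP)).add
      (((hy.pow 2).sub analyticAt_const).mul (hid.pow 4))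
  have hden : AnalyticAt ℂ (fun w => 4 * (℘[L] (s - w) * w ^ 2 - wpP L w) ^ 2) 0 :=
    analyticAt_const.mul (((hx.mul (hid.pow 2)).sub hP).pow 2)
  have hne : (4 : ℂ) * (℘[L] (s - 0) * (0 : ℂ) ^ 2 - wpP L 0) ^ 2 ≠ 0 := by
    rw [hP0]; norm_num
  exact (hnum.div hden hne).sub hx

/-- near `0` (off `0`) everything is defined -/
theorem eventually_good {s : ℂ} (hs : s ∉ L.lattice) :
    ∀ᶠ w in 𝓝 (0 : ℂ), w ≠ 0 →
      (w ∉ L.lattice ∧ s - w ∉ L.lattice ∧ ℘[L] (s - w) ≠ ℘[L] w) := by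
  have h1 := eventually_not_mem_lattice L
  have h2 : ∀ᶠ w in 𝓝 (0 : ℂ), s - w ∉ L.lattice := by
    have hc : ContinuousAt (fun w : ℂ => s - w) 0 := by fun_prop
    have hmem : (L.lattice : Set ℂ)ᶜ ∈ 𝓝 (s - 0) := by
      rw [sub_zero]; exact (isOpen_compl_lattice L).mem_nhds hs
    exact hc.eventually hmem
  have h3 : ∀ᶠ w in 𝓝 (0 : ℂ), ℘[L] (s - w) * w ^ 2 - wpP L w ≠ 0 := by
    have hc : ContinuousAt (fun w : ℂ => ℘[L] (s - w) * w ^ 2 - wpP L w) 0 :=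
      (((analyticAt_wp_sub L hs).mul ((analyticAt_id).pow 2)).sub (analyticAt_wpP L)).continuousAt
    have h0 : ℘[L] (s - 0) * (0 : ℂ) ^ 2 - wpP L 0 ≠ 0 := by
      have hP0 : wpP L 0 = 1 := by unfold wpP; simp
      rw [hP0]; norm_num
    exact hc.eventually_ne h0
  filter_upwards [h1, h2, h3] with w hw1 hw2 hw3 hw0
  refine ⟨hw1 hw0, hw2, fun h => hw3 ?_⟩
  rw [wpP_eq L hw0, h]; ring

/-- **`ψ(w) = ℘(s)` for small `w ≠ 0`** -/
theorem psiX_eq_near_zero {s : ℂ} (hs : s ∉ L.lattice) :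
    ∀ᶠ w in 𝓝 (0 : ℂ), w ≠ 0 → psiX L s w = ℘[L] s := by
  have hgood := eventually_good L hs
  have hA := analyticAt_psiT L hs
  -- `ψ̃ = ψ` off `0`
  have heq : ∀ᶠ w in 𝓝 (0 : ℂ), w ≠ 0 → psiT L s w = psiX L s w := by
    filter_upwards [hgood] with w hw hw0
    exact psiT_eq L hw0 (hw hw0).1 (hw hw0).2.2
  -- the derivative of `ψ̃` vanishes off `0`
  have hder : ∀ᶠ w in 𝓝 (0 : ℂ), w ≠ 0 → deriv (psiT L s) w = 0 := by
    filter_upwards [eventually_eventually_nhds.2 heq, hgood] with w hw hg hw0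
    have hne : ∀ᶠ u in 𝓝 w, u ≠ 0 := (continuous_id.continuousAt).eventually_ne hw0
    have hev : psiT L s =ᶠ[𝓝 w] psiX L s := by
      filter_upwards [hw, hne] with u hu hu0
      exact hu hu0
    rw [hev.deriv_eq]
    exact (hasDerivAt_psiX L (hg hw0).1 (hg hw0).2.1 (hg hw0).2.2).deriv
  have hder' : ∀ᶠ w in 𝓝 (0 : ℂ), deriv (psiT L s) w = 0 := by
    rcases hA.deriv.eventually_eq_zero_or_eventually_ne_zero with h | h
    · exact h
    · exfalso
      have h1 : ∀ᶠ w in 𝓝[≠] (0 : ℂ), deriv (psiT L s) w = 0 := by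
        rw [eventually_nhdsWithin_iff]
        filter_upwards [hder] with w hw hw0
        exact hw hw0
      have := (h.and h1).exists
      obtain ⟨w, hw1, hw2⟩ := this
      exact hw1 hw2
  -- a ball
  obtain ⟨ρ, hρ, hball⟩ := Metric.eventually_nhds_iff_ball.1
    ((hA.eventually_analyticAt.and hder').and heq)
  rw [Metric.eventually_nhds_iff_ball]
  refine ⟨ρ, hρ, fun w hw hw0 => ?_⟩
  have hconst := (Metric.isOpen_ball (x := (0 : ℂ)) (ε := ρ)).is_const_of_deriv_eq_zero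
    (convex_ball (0 : ℂ) ρ).isPreconnected
    (fun u hu => ((hball u hu).1.1.differentiableAt).differentiableWithinAt)
    (fun u hu => (hball u hu).1.2) hw (Metric.mem_ball_self hρ)
  rw [← (hball w hw).2 hw0, hconst, psiT_zero]

/-- the polynomial form of the addition theorem -/
def addPoly (s w : ℂ) : ℂ :=
  (℘'[L] (s - w) - ℘'[L] w) ^ 2 -
    4 * (℘[L] (s - w) + ℘[L] w + ℘[L] s) * (℘[L] (s - w) - ℘[L] w) ^ 2

theorem addPoly_of_psiX {s w : ℂ} (hne : ℘[L] (s - w) ≠ ℘[L] w) (h : psiX L s w = ℘[L] s) :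
    addPoly L s w = 0 := by
  have hM : ℘[L] (s - w) - ℘[L] w ≠ 0 := sub_ne_zero.2 hne
  unfold psiX at h
  unfold addPoly
  rw [← h]
  field_simp
  ring

theorem countable_sub_lattice (s : ℂ) : {w : ℂ | s - w ∈ L.lattice}.Countable := by
  have h : {w : ℂ | s - w ∈ L.lattice} ⊆ (fun l : ℂ => s - l) '' (L.lattice : Set ℂ) := by
    intro w hw
    exact ⟨s - w, hw, by ring⟩
  exact ((countable_lattice L).image _).mono h

theorem addPoly_eq_zero {s w : ℂ} (hs : s ∉ L.lattice) (hw : w ∉ L.lattice)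
    (hsw : s - w ∉ L.lattice) : addPoly L s w = 0 := by
  set V : Set ℂ := ((L.lattice : Set ℂ) ∪ {w : ℂ | s - w ∈ L.lattice})ᶜ with hV
  have hVconn : IsPreconnected V :=
    isPreconnected_compl_of_countable ((countable_lattice L).union (countable_sub_lattice L s))
  have hmemV : ∀ {u : ℂ}, u ∈ V ↔ u ∉ L.lattice ∧ s - u ∉ L.lattice := by
    intro u
    simp only [hV, Set.mem_compl_iff, Set.mem_union, SetLike.mem_coe, Set.mem_ofPred_eq, not_or]
  have hAn : AnalyticOnNhd ℂ (addPoly L s) V := by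
    intro u hu
    obtain ⟨hu1, hu2⟩ := hmemV.1 hu
    have h1 : AnalyticAt ℂ ℘[L] u := L.analyticOnNhd_weierstrassP u hu1
    have h1' : AnalyticAt ℂ ℘'[L] u := L.analyticOnNhd_derivWeierstrassP u hu1
    have hsub : AnalyticAt ℂ (fun w : ℂ => s - w) u := analyticAt_const.sub analyticAt_id
    have h2 : AnalyticAt ℂ (fun w => ℘[L] (s - w)) u :=
      (L.analyticOnNhd_weierstrassP (s - u) hu2).fun_comp hsub
    have h2' : AnalyticAt ℂ (fun w => ℘'[L] (s - w)) u :=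
      (L.analyticOnNhd_derivWeierstrassP (s - u) hu2).fun_comp hsub
    exact ((h2'.sub h1').pow 2).sub
      ((analyticAt_const.mul ((h2.add h1).add analyticAt_const)).mul ((h2.sub h1).pow 2))
  -- a base point near `0`
  have hev : ∀ᶠ u in 𝓝 (0 : ℂ), u ≠ 0 → (addPoly L s u = 0 ∧ u ∈ V) := by
    filter_upwards [psiX_eq_near_zero L hs, eventually_good L hs] with u h1 h2 hu0
    exact ⟨addPoly_of_psiX L (h2 hu0).2.2 (h1 hu0), hmemV.2 ⟨(h2 hu0).1, (h2 hu0).2.1⟩⟩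
  have hev2 := eventually_eventually_nhds.mpr hev
  have hfreq : ∃ᶠ z in 𝓝 (0 : ℂ), z ≠ 0 := by
    have h1 : ∃ᶠ z in 𝓝[≠] (0 : ℂ), z ≠ 0 :=
      (eventually_mem_nhdsWithin (a := (0 : ℂ)) (s := {0}ᶜ)).frequently
    exact h1.filter_mono nhdsWithin_le_nhds
  obtain ⟨z₀, ⟨hz₀, hz₀'⟩, hz₀0⟩ := ((hev2.and hev).and_frequently hfreq).exists
  have hne : ∀ᶠ u in 𝓝 z₀, u ≠ 0 := (continuous_id.continuousAt).eventually_ne hz₀0
  have heq : addPoly L s =ᶠ[𝓝 z₀] fun _ => (0 : ℂ) := by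
    filter_upwards [hz₀, hne] with u hu hu0
    exact (hu hu0).1
  have h0 : AnalyticOnNhd ℂ (fun _ : ℂ => (0 : ℂ)) V := fun _ _ => analyticAt_const
  exact hAn.eqOn_of_preconnected_of_eventuallyEq h0 hVconn (hz₀' hz₀0).2 heq (hmemV.2 ⟨hw, hsw⟩)

/-- **the addition theorem of `℘`** (`x`-coordinate, polynomial form) -/
theorem addX {z w : ℂ} (hz : z ∉ L.lattice) (hw : w ∉ L.lattice) (hzw : z + w ∉ L.lattice) :
    (℘'[L] z - ℘'[L] w) ^ 2 = 4 * (℘[L] z + ℘[L] w + ℘[L] (z + w)) * (℘[L] z - ℘[L] w) ^ 2 := by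
  have h := addPoly_eq_zero L hzw hw (by rwa [add_sub_cancel_right])
  unfold addPoly at h
  rw [add_sub_cancel_right] at h
  exact sub_eq_zero.1 h

/-- the `x`-coordinate in solved form -/
theorem addX' {z w : ℂ} (hz : z ∉ L.lattice) (hw : w ∉ L.lattice) (hzw : z + w ∉ L.lattice)
    (hne : ℘[L] z ≠ ℘[L] w) :
    ℘[L] (z + w) = (℘'[L] z - ℘'[L] w) ^ 2 / (4 * (℘[L] z - ℘[L] w) ^ 2) - ℘[L] z - ℘[L] w := by
  have h := addX L hz hw hzw
  have hM : ℘[L] z - ℘[L] w ≠ 0 := sub_ne_zero.2 hne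
  field_simp
  linear_combination -h

theorem hasDerivAt_wp_add {z w : ℂ} (h : z + w ∉ L.lattice) :
    HasDerivAt (fun z => ℘[L] (z + w)) (℘'[L] (z + w)) z := by
  exact HasDerivAt.comp_add_const z w (hasDerivAt_wp L h)

/-- **the addition theorem of `℘`** (`y`-coordinate) -/
theorem addY {z w : ℂ} (hz : z ∉ L.lattice) (hw : w ∉ L.lattice) (hzw : z + w ∉ L.lattice)
    (hne : ℘[L] z ≠ ℘[L] w) :
    ℘'[L] (z + w) =
      -((℘'[L] z - ℘'[L] w) / (℘[L] z - ℘[L] w)) * (℘[L] (z + w) - ℘[L] z) - ℘'[L] z := by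
  -- near `z` the `x`-formula holds
  have hev : ∀ᶠ u in 𝓝 z, u ∉ L.lattice ∧ u + w ∉ L.lattice ∧ ℘[L] u ≠ ℘[L] w := by
    have h1 : ∀ᶠ u in 𝓝 z, u ∉ L.lattice := (isOpen_compl_lattice L).mem_nhds hz
    have h2 : ∀ᶠ u in 𝓝 z, u + w ∉ L.lattice := by
      have hc : ContinuousAt (fun u : ℂ => u + w) z := by fun_prop
      exact hc.eventually ((isOpen_compl_lattice L).mem_nhds hzw)
    have h3 : ∀ᶠ u in 𝓝 z, ℘[L] u ≠ ℘[L] w :=
      (L.analyticOnNhd_weierstrassP z hz).continuousAt.eventually_ne hne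
    filter_upwards [h1, h2, h3] with u hu1 hu2 hu3 using ⟨hu1, hu2, hu3⟩
  have heq : (fun u => ℘[L] (u + w)) =ᶠ[𝓝 z] fun u =>
      (℘'[L] u - ℘'[L] w) ^ 2 / (4 * (℘[L] u - ℘[L] w) ^ 2) - ℘[L] u - ℘[L] w := by
    filter_upwards [hev] with u hu
    exact addX' L hu.1 hw hu.2.1 hu.2.2
  have hx := hasDerivAt_wp L hz
  have hy := hasDerivAt_wp' L hz
  have hM : ℘[L] z - ℘[L] w ≠ 0 := sub_ne_zero.2 hne
  have hden : (4 : ℂ) * (℘[L] z - ℘[L] w) ^ 2 ≠ 0 := mul_ne_zero (by norm_num) (pow_ne_zero 2 hM)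
  have hN := hy.sub_const (℘'[L] w)
  have hMd := hx.sub_const (℘[L] w)
  have hquot := ((hN.pow 2).div ((hMd.pow 2).const_mul 4) hden)
  have htot := (hquot.sub hx).sub_const (℘[L] w)
  have huniq := (hasDerivAt_wp_add L hzw).unique (htot.congr_of_eventuallyEq heq)
  have hX := addX' L hz hw hzw hne
  have e₁ := L.derivWeierstrassP_sq z hz
  have e₂ := L.derivWeierstrassP_sq w hw
  rw [huniq, hX]
  simp only [Pi.pow_apply]
  generalize ℘[L] z = x₁ at *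
  generalize ℘'[L] z = y₁ at *
  generalize ℘[L] w = x₂ at *
  generalize ℘'[L] w = y₂ at *
  field_simp
  push_cast
  linear_combination (-(2 * (y₁ - y₂) * (x₁ - x₂))) * e₁ + (2 * (y₁ - y₂) * (x₁ - x₂)) * e₂

/-- **the generic chord law** in the shape consumed by the group-law packaging (helper7's `hadd`). -/
theorem add_generic (z w : ℂ) (hz : z ∉ L.lattice) (hw : w ∉ L.lattice) (hzw : z + w ∉ L.lattice)
    (hne : ℘[L] z ≠ ℘[L] w) :
    ℘[L] (z + w) = ((℘'[L] z - ℘'[L] w) / (℘[L] z - ℘[L] w)) ^ 2 / 4 - ℘[L] z - ℘[L] w ∧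
    ℘'[L] (z + w) = -(((℘'[L] z - ℘'[L] w) / (℘[L] z - ℘[L] w)) * (℘[L] (z + w) - ℘[L] z) +
      ℘'[L] z) := by
  refine ⟨?_, ?_⟩
  · rw [addX' L hz hw hzw hne, div_pow, div_div, mul_comm ((℘[L] z - ℘[L] w) ^ 2) 4]
  · rw [addY L hz hw hzw hne]; ring

end Fermat.Agent.S15lib.Dict.Unif
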