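/-
S15lib / Dict / Unif / Lattice  (helper2) — Project E, block DICT (EA)(U), part (U1).

Every pair `(A, B)` with `A³ - 27 B² ≠ 0` is `(g₂, g₃)` of a period lattice:
`exists_periodPair`.  Route: `j` is onto (`ProgramR.LevelOne.jInv_surjective`), the bridge
`g₂(λ(ℤτ+ℤ)) = λ⁻⁴ · 120 ζ(4) E₄(τ)`, `g₃ = λ⁻⁶ · 280 ζ(6) E₆(τ)` (`g₂_periodPairOf`,
`g₃_periodPairOf`), `ζ(4) = π⁴/90`, `ζ(6) = π⁶/945`, and a homothety.
-/
import Mathlib
import Fermat.Agent.ProgramR.LevelOne.JInjective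

set_option autoImplicit false
set_option linter.unusedSectionVars false
set_option linter.style.haveILetI false

noncomputable section

namespace Fermat.Agent.S15lib.Dict.Unif

open Complex ModularForm EisensteinSeries UpperHalfPlane
open Fermat.Agent.ProgramR.LevelOne

theorem bernoulli'_five' : bernoulli' 5 = 0 := by
  have h1 : Nat.choose 5 2 = 10 := by decide
  have h2 : Nat.choose 5 3 = 10 := by decide
  rw [bernoulli'_def]
  norm_num [Finset.sum_range_succ, Finset.sum_range_zero, h1, h2]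

theorem bernoulli'_six' : bernoulli' 6 = 1 / 42 := by
  have h4 : Nat.choose 6 4 = 15 := by decide
  have h2 : Nat.choose 6 2 = 15 := by decide
  have h3 : Nat.choose 6 3 = 20 := by decide
  have h5 : Nat.choose 6 5 = 6 := by decide
  rw [bernoulli'_def]
  norm_num [Finset.sum_range_succ, Finset.sum_range_zero, h4, h2, h3, h5, bernoulli'_five']

/-- `ζ(6) = π⁶ / 945` -/
theorem riemannZeta_six' : riemannZeta 6 = (Real.pi : ℂ) ^ 6 / 945 := by
  have h := riemannZeta_two_mul_nat (k := 3) (by norm_num)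
  have e : ((2 : ℂ) * ((3 : ℕ) : ℂ)) = 6 := by norm_num
  rw [e] at h
  rw [h, bernoulli_eq_bernoulli'_of_ne_one (by norm_num), bernoulli'_six']
  have hf : (Nat.factorial (2 * 3) : ℂ) = 720 := by norm_num [Nat.factorial]
  rw [hf]
  norm_num
  ring

/-- the homothety lemma: `(a, b)` and `(a', b')` with the same `j` differ by `(μ⁴, μ⁶)`. -/
theorem exists_scale {a b a' b' : ℂ} (hΔ : a ^ 3 - 27 * b ^ 2 ≠ 0)
    (hΔ' : a' ^ 3 - 27 * b' ^ 2 ≠ 0) (hrel : a ^ 3 * b' ^ 2 = a' ^ 3 * b ^ 2) :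
    ∃ lam : ℂ, lam ≠ 0 ∧ a' = lam ^ 4 * a ∧ b' = lam ^ 6 * b := by
  by_cases ha0 : a = 0
  · have hb0 : b ≠ 0 := by
      intro h; apply hΔ; rw [ha0, h]; ring
    have ha'0 : a' = 0 := by
      rw [ha0] at hrel
      have : a' ^ 3 * b ^ 2 = 0 := by rw [← hrel]; ring
      rcases mul_eq_zero.mp this with h | h
      · exact eq_zero_of_pow_eq_zero h
      · exact absurd (eq_zero_of_pow_eq_zero h) hb0
    have hb'0 : b' ≠ 0 := by
      intro h; apply hΔ'; rw [ha'0, h]; ring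
    obtain ⟨lam, hlam⟩ := IsAlgClosed.exists_pow_nat_eq (b' / b) (n := 6) (by norm_num)
    have hl0 : lam ≠ 0 := by
      rintro rfl
      have : b' / b = 0 := by rw [← hlam]; ring
      exact absurd this (div_ne_zero hb'0 hb0)
    refine ⟨lam, hl0, ?_, ?_⟩
    · rw [ha'0, ha0, mul_zero]
    · rw [hlam]; field_simp
  by_cases hb0 : b = 0
  · have hb'0 : b' = 0 := by
      rw [hb0] at hrel
      have : a ^ 3 * b' ^ 2 = 0 := by rw [hrel]; ring
      rcases mul_eq_zero.mp this with h' | h'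
      · exact absurd (eq_zero_of_pow_eq_zero h') ha0
      · exact eq_zero_of_pow_eq_zero h'
    have ha'0 : a' ≠ 0 := by
      intro h
      apply hΔ'; rw [h, hb'0]; ring
    obtain ⟨lam, hlam⟩ := IsAlgClosed.exists_pow_nat_eq (a' / a) (n := 4) (by norm_num)
    have hl0 : lam ≠ 0 := by
      rintro rfl
      have : a' / a = 0 := by rw [← hlam]; ring
      exact absurd this (div_ne_zero ha'0 ha0)
    refine ⟨lam, hl0, ?_, ?_⟩
    · rw [hlam]; field_simp
    · rw [hb'0, hb0, mul_zero]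
  · have ha'0 : a' ≠ 0 := by
      intro h
      have hb'0 : b' = 0 := by
        rw [h] at hrel
        have : a ^ 3 * b' ^ 2 = 0 := by rw [hrel]; ring
        rcases mul_eq_zero.mp this with h' | h'
        · exact absurd (eq_zero_of_pow_eq_zero h') ha0
        · exact eq_zero_of_pow_eq_zero h'
      apply hΔ'; rw [h, hb'0]; ring
    have hb'0 : b' ≠ 0 := by
      intro h
      rw [h] at hrel
      have : a' ^ 3 * b ^ 2 = 0 := by rw [← hrel]; ring
      rcases mul_eq_zero.mp this with h' | h'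
      · exact ha'0 (eq_zero_of_pow_eq_zero h')
      · exact hb0 (eq_zero_of_pow_eq_zero h')
    obtain ⟨lam, hlam⟩ := IsAlgClosed.exists_pow_nat_eq ((b' / b) / (a' / a)) (n := 2)
      (by norm_num)
    have hl0 : lam ≠ 0 := by
      rintro rfl
      have : (b' / b) / (a' / a) = 0 := by rw [← hlam]; ring
      exact absurd this (div_ne_zero (div_ne_zero hb'0 hb0) (div_ne_zero ha'0 ha0))
    have huv : (a' / a) ^ 3 = (b' / b) ^ 2 := by
      field_simp
      linear_combination -hrel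
    have hl4 : lam ^ 4 = a' / a := by
      have : lam ^ 4 = (lam ^ 2) ^ 2 := by ring
      rw [this, hlam, div_pow, ← huv]
      field_simp
    have hl6 : lam ^ 6 = b' / b := by
      have : lam ^ 6 = (lam ^ 2) ^ 3 := by ring
      rw [this, hlam, div_pow, huv]
      field_simp
    refine ⟨lam, hl0, ?_, ?_⟩
    · rw [hl4]; field_simp
    · rw [hl6]; field_simp

/-- **(U1)** every `(A, B)` with `A³ - 27 B² ≠ 0` is `(g₂, g₃)` of a period lattice. -/
theorem exists_periodPair (A B : ℂ) (h : A ^ 3 - 27 * B ^ 2 ≠ 0) :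
    ∃ L : PeriodPair, L.g₂ = A ∧ L.g₃ = B := by
  obtain ⟨τ, hτ⟩ := jInv_surjective (1728 * A ^ 3 / (A ^ 3 - 27 * B ^ 2))
  have hπ : (Real.pi : ℂ) ≠ 0 := by exact_mod_cast Real.pi_ne_zero
  set e4 := E₄ τ with he4
  set e6 := E₆ τ with he6
  have hΔτ : e4 ^ 3 - e6 ^ 2 ≠ 0 := by
    have h1 := ModularForm.discriminant_eq_E₄_cube_sub_E₆_sq τ
    have h2 := ModularForm.discriminant_ne_zero τ
    intro h0
    apply h2
    rw [h1, ← he4, ← he6, h0, zero_div]
  set a : ℂ := 4 * (Real.pi : ℂ) ^ 4 / 3 * e4 with ha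
  set b : ℂ := 8 * (Real.pi : ℂ) ^ 6 / 27 * e6 with hb
  have hab : a ^ 3 - 27 * b ^ 2 = 64 * (Real.pi : ℂ) ^ 12 / 27 * (e4 ^ 3 - e6 ^ 2) := by
    rw [ha, hb]; ring
  have hab0 : a ^ 3 - 27 * b ^ 2 ≠ 0 := by
    rw [hab]
    exact mul_ne_zero (div_ne_zero (mul_ne_zero (by norm_num) (pow_ne_zero _ hπ)) (by norm_num)) hΔτ
  have hrel : a ^ 3 * B ^ 2 = A ^ 3 * b ^ 2 := by
    have h1 : jInv τ = e4 ^ 3 / ((e4 ^ 3 - e6 ^ 2) / 1728) := by
      rw [jInv_def, ModularForm.discriminant_eq_E₄_cube_sub_E₆_sq τ]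
    rw [h1] at hτ
    have hτ' : e4 ^ 3 * (A ^ 3 - 27 * B ^ 2) = A ^ 3 * (e4 ^ 3 - e6 ^ 2) := by
      field_simp at hτ
      linear_combination hτ
    rw [ha, hb]
    linear_combination (-(64 * (Real.pi : ℂ) ^ 12 / 729)) * hτ'
  obtain ⟨μ, hμ0, hA, hB⟩ := exists_scale hab0 h hrel
  refine ⟨periodPairOf μ⁻¹ (inv_ne_zero hμ0) τ, ?_, ?_⟩
  · rw [g₂_periodPairOf, hA, ha, ← he4]
    have : riemannZeta ((4 : ℕ) : ℂ) = (Real.pi : ℂ) ^ 4 / 90 := by
      have := riemannZeta_four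
      simpa using this
    rw [this, inv_pow, inv_inv]
    ring
  · rw [g₃_periodPairOf, hB, hb, ← he6]
    have : riemannZeta ((6 : ℕ) : ℂ) = (Real.pi : ℂ) ^ 6 / 945 := by
      have := riemannZeta_six'
      simpa using this
    rw [this, inv_pow, inv_inv]
    ring

end Fermat.Agent.S15lib.Dict.Unif
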