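/-
S15lib / Dict / Unif / Main  (helper7, on top of helper2's `Lattice`, `Add` and helper3's `EA`)
— Project E, block DICT (EA)(U): the uniformisation of `E(ℂ)` and helper8's `UnifStmt`.

* lattice with prescribed invariants: helper2's `exists_periodPair`;
* the generic chord law: helper2's `add_generic`;
* `℘` onto, `℘` of degree two: helper3's `EA.exists_wp_eq`, `EA.wp_eq_iff`;
* packaging into Mathlib's group law: `Unif/Pack.lean`.
-/
import Fermat.Agent.S15lib.Dict.Unif.Pack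
import Fermat.Agent.S15lib.Dict.Unif.Lattice
import Fermat.Agent.S15lib.Dict.Unif.Add
import Fermat.Agent.S15lib.Dict.EA.Key
import Fermat.Agent.S15lib.Dict.EA.Liouville

set_option autoImplicit false

noncomputable section

namespace Fermat.Agent.S15lib.Dict.Unif

open scoped PeriodPair

/-- **(EA)(U)** every complex elliptic curve is `ℂ/Λ`:
`Ψ z = (℘ z - b₂/12, (℘' z - a₁x - a₃)/2)` is an additive surjection `ℂ → E(ℂ)` with kernel `Λ`,
where `g₂(Λ) = c₄/12`, `g₃(Λ) = c₆/216`. -/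
theorem exists_uniformization (E : WeierstrassCurve ℂ) (hΔ : E.Δ ≠ 0) :
    ∃ (L : PeriodPair) (Ψ : ℂ →+ E.toAffine.Point), L.g₂ = E.c₄ / 12 ∧ L.g₃ = E.c₆ / 216 ∧
      Function.Surjective Ψ ∧ (∀ z, Ψ z = 0 ↔ z ∈ L.lattice) ∧
      ∀ z, z ∉ L.lattice →
        Dict.ptX (Ψ z) = ℘[L] z - E.b₂ / 12 ∧ Dict.psi2 E (Ψ z) = ℘'[L] z := by
  have hd : (E.c₄ / 12) ^ 3 - 27 * (E.c₆ / 216) ^ 2 ≠ 0 := by
    intro h
    apply hΔ
    linear_combination h + (1 / 1728 : ℂ) * E.c_relation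
  obtain ⟨L, h2, h3⟩ := exists_periodPair _ _ hd
  obtain ⟨Ψ, hs, hk, hc⟩ := exists_unif_of_addition E hΔ L h2 h3 (EA.exists_wp_eq L)
    (fun z w hz hw h => (EA.wp_eq_iff hz hw).1 h)
    (fun z w hz hw hzw hne => add_generic L z w hz hw hzw hne)
  exact ⟨L, Ψ, h2, h3, hs, hk, hc⟩

/-- **(EA)(U)** in the shape of `Dict/Iface.lean` -/
theorem unifStmt : Dict.UnifStmt :=
  unifStmt_of exists_uniformization

end Fermat.Agent.S15lib.Dict.Unif
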