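/-
S15lib / Dict / Unif / Pack  (helper7)  — Project E, block DICT (EA)(U), slice (U4)

Group-law packaging of the uniformisation `Ψ : ℂ → E(ℂ)`,
`Ψ z = (℘ z - b₂/12, (℘' z - a₁ x - a₃)/2)`, against the analytic inputs as hypotheses:

* `hsurj` : `℘` takes every value,
* `hinj`  : `℘ z = ℘ w → z ≡ ± w  (mod Λ)`,
* `hadd`  : the generic chord law (x- and y-coordinate) for `℘ z ≠ ℘ w`.

Everything here is algebra plus one countability argument (the doubling case is obtained from the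
generic chord law through `Ψ(2z) = Ψ(z+u) + Ψ(z-u)`).
-/
import Fermat.Agent.S15lib.Dict.Iface
import Fermat.Agent.ProgramR.LevelOne.WPUnique

set_option autoImplicit false

noncomputable section

namespace Fermat.Agent.S15lib.Dict.Unif

open WeierstrassCurve WeierstrassCurve.Affine
open scoped PeriodPair

variable (E : WeierstrassCurve ℂ) (L : PeriodPair)

/-- the `x`-coordinate of `Ψ z` -/
def xOf (z : ℂ) : ℂ := ℘[L] z - E.b₂ / 12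

/-- the `y`-coordinate of `Ψ z` -/
def yOf (z : ℂ) : ℂ := (℘'[L] z - E.a₁ * xOf E L z - E.a₃) / 2

lemma xOf_add_mem {l : ℂ} (hl : l ∈ L.lattice) (z : ℂ) : xOf E L (z + l) = xOf E L z := by
  have := L.weierstrassP_add_coe z ⟨l, hl⟩
  simp only [xOf] at *
  rw [this]

lemma yOf_add_mem {l : ℂ} (hl : l ∈ L.lattice) (z : ℂ) : yOf E L (z + l) = yOf E L z := by
  have := L.derivWeierstrassP_add_coe z ⟨l, hl⟩
  simp only [yOf, xOf_add_mem E L hl] at *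
  rw [this]

lemma xOf_neg (z : ℂ) : xOf E L (-z) = xOf E L z := by
  simp only [xOf, L.weierstrassP_neg]

lemma yOf_neg (z : ℂ) : yOf E L (-z) = E.toAffine.negY (xOf E L z) (yOf E L z) := by
  simp only [yOf, xOf_neg, L.derivWeierstrassP_neg, negY]
  ring

variable {E L}

/-- the curve equation in terms of `X = x + b₂/12`, `Y = 2y + a₁x + a₃` -/
lemma equation_iff_short (hg₂ : L.g₂ = E.c₄ / 12) (hg₃ : L.g₃ = E.c₆ / 216) (x y : ℂ) :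
    E.toAffine.Equation x y ↔
      (2 * y + E.a₁ * x + E.a₃) ^ 2 =
        4 * (x + E.b₂ / 12) ^ 3 - L.g₂ * (x + E.b₂ / 12) - L.g₃ := by
  rw [equation_iff, hg₂, hg₃]
  simp only [c₄, c₆, b₂, b₄, b₆]
  constructor
  · intro h
    linear_combination 4 * h
  · intro h
    linear_combination (1 / 4 : ℂ) * h

lemma equation_xOf_yOf (hg₂ : L.g₂ = E.c₄ / 12) (hg₃ : L.g₃ = E.c₆ / 216) {z : ℂ}
    (hz : z ∉ L.lattice) : E.toAffine.Equation (xOf E L z) (yOf E L z) := by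
  rw [equation_iff_short hg₂ hg₃]
  have h := L.derivWeierstrassP_sq z hz
  have h1 : 2 * yOf E L z + E.a₁ * xOf E L z + E.a₃ = ℘'[L] z := by
    simp only [yOf]; ring
  have h2 : xOf E L z + E.b₂ / 12 = ℘[L] z := by
    simp only [xOf]; ring
  rw [h1, h2, h]

lemma nonsingular_xOf_yOf (hΔ : E.Δ ≠ 0) (hg₂ : L.g₂ = E.c₄ / 12) (hg₃ : L.g₃ = E.c₆ / 216) {z : ℂ}
    (hz : z ∉ L.lattice) : E.toAffine.Nonsingular (xOf E L z) (yOf E L z) :=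
  (E.toAffine.equation_iff_nonsingular_of_Δ_ne_zero hΔ).1 (equation_xOf_yOf hg₂ hg₃ hz)

open Classical in
variable (E L) in
/-- the uniformisation map -/
def Psi (hΔ : E.Δ ≠ 0) (hg₂ : L.g₂ = E.c₄ / 12) (hg₃ : L.g₃ = E.c₆ / 216) (z : ℂ) :
    E.toAffine.Point :=
  if hz : z ∈ L.lattice then 0
  else .some (xOf E L z) (yOf E L z) (nonsingular_xOf_yOf hΔ hg₂ hg₃ hz)

section

variable (hΔ : E.Δ ≠ 0) (hg₂ : L.g₂ = E.c₄ / 12) (hg₃ : L.g₃ = E.c₆ / 216)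

lemma Psi_of_mem {z : ℂ} (hz : z ∈ L.lattice) : Psi E L hΔ hg₂ hg₃ z = 0 := by
  simp only [Psi, dif_pos hz]

lemma Psi_of_not_mem {z : ℂ} (hz : z ∉ L.lattice) :
    Psi E L hΔ hg₂ hg₃ z =
      .some (xOf E L z) (yOf E L z) (nonsingular_xOf_yOf hΔ hg₂ hg₃ hz) := by
  simp only [Psi, dif_neg hz]

lemma Psi_eq_zero_iff (z : ℂ) : Psi E L hΔ hg₂ hg₃ z = 0 ↔ z ∈ L.lattice := by
  constructor
  · intro h
    by_contra hz
    rw [Psi_of_not_mem hΔ hg₂ hg₃ hz] at h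
    exact Point.some_ne_zero _ h
  · exact Psi_of_mem hΔ hg₂ hg₃

lemma some_eq_some {x y x' y' : ℂ} {h : E.toAffine.Nonsingular x y}
    {h' : E.toAffine.Nonsingular x' y'} (hx : x = x') (hy : y = y') :
    (Point.some x y h : E.toAffine.Point) = Point.some x' y' h' := by
  subst hx; subst hy; rfl

lemma Psi_add_mem {l : ℂ} (hl : l ∈ L.lattice) (z : ℂ) :
    Psi E L hΔ hg₂ hg₃ (z + l) = Psi E L hΔ hg₂ hg₃ z := by
  by_cases hz : z ∈ L.lattice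
  · rw [Psi_of_mem hΔ hg₂ hg₃ hz, Psi_of_mem hΔ hg₂ hg₃ (L.lattice.add_mem hz hl)]
  · have hzl : z + l ∉ L.lattice := fun h => hz (by simpa using L.lattice.sub_mem h hl)
    rw [Psi_of_not_mem hΔ hg₂ hg₃ hz, Psi_of_not_mem hΔ hg₂ hg₃ hzl]
    exact some_eq_some (xOf_add_mem E L hl z) (yOf_add_mem E L hl z)

lemma Psi_neg (z : ℂ) : Psi E L hΔ hg₂ hg₃ (-z) = -Psi E L hΔ hg₂ hg₃ z := by
  by_cases hz : z ∈ L.lattice
  · rw [Psi_of_mem hΔ hg₂ hg₃ hz, Psi_of_mem hΔ hg₂ hg₃ (L.lattice.neg_mem hz)]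
    rfl
  · have hnz : -z ∉ L.lattice := fun h => hz (by simpa using L.lattice.neg_mem h)
    rw [Psi_of_not_mem hΔ hg₂ hg₃ hz, Psi_of_not_mem hΔ hg₂ hg₃ hnz, Point.neg_some]
    exact some_eq_some (xOf_neg E L z) (yOf_neg E L z)

/-- the vertical case -/
lemma Psi_add_of_add_mem {z w : ℂ} (h : z + w ∈ L.lattice) :
    Psi E L hΔ hg₂ hg₃ (z + w) = Psi E L hΔ hg₂ hg₃ z + Psi E L hΔ hg₂ hg₃ w := by
  have hw : w = -z + (z + w) := by ring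
  have h1 : Psi E L hΔ hg₂ hg₃ w = -Psi E L hΔ hg₂ hg₃ z := by
    rw [hw, Psi_add_mem hΔ hg₂ hg₃ h, Psi_neg]
  rw [Psi_of_mem hΔ hg₂ hg₃ h, h1, add_neg_cancel]

/-- the generic chord case -/
lemma Psi_add_of_chord {z w : ℂ} (hz : z ∉ L.lattice) (hw : w ∉ L.lattice)
    (hzw : z + w ∉ L.lattice) (hne : ℘[L] z ≠ ℘[L] w)
    (hX : ℘[L] (z + w) = ((℘'[L] z - ℘'[L] w) / (℘[L] z - ℘[L] w)) ^ 2 / 4 - ℘[L] z - ℘[L] w)
    (hY : ℘'[L] (z + w) =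
      -(((℘'[L] z - ℘'[L] w) / (℘[L] z - ℘[L] w)) * (℘[L] (z + w) - ℘[L] z) + ℘'[L] z)) :
    Psi E L hΔ hg₂ hg₃ (z + w) = Psi E L hΔ hg₂ hg₃ z + Psi E L hΔ hg₂ hg₃ w := by
  have hx : xOf E L z ≠ xOf E L w := by
    simp only [xOf]
    intro h
    exact hne (by linear_combination h)
  rw [Psi_of_not_mem hΔ hg₂ hg₃ hz, Psi_of_not_mem hΔ hg₂ hg₃ hw,
    Psi_of_not_mem hΔ hg₂ hg₃ hzw, Point.add_of_X_ne hx]
  have hd : ℘[L] z - ℘[L] w ≠ 0 := sub_ne_zero.2 hne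
  have hsl : E.toAffine.slope (xOf E L z) (xOf E L w) (yOf E L z) (yOf E L w) =
      ((℘'[L] z - ℘'[L] w) / (℘[L] z - ℘[L] w) - E.a₁) / 2 := by
    rw [slope_of_X_ne hx]
    have hd' : xOf E L z - xOf E L w ≠ 0 := sub_ne_zero.2 hx
    have e1 : xOf E L z - xOf E L w = ℘[L] z - ℘[L] w := by simp only [xOf]; ring
    rw [div_eq_iff hd', e1]
    simp only [yOf, xOf]
    field_simp
    ring
  have hxx : xOf E L (z + w) =
      E.toAffine.addX (xOf E L z) (xOf E L w)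
        (E.toAffine.slope (xOf E L z) (xOf E L w) (yOf E L z) (yOf E L w)) := by
    rw [hsl]
    simp only [addX, xOf, b₂]
    rw [hX]
    ring
  refine some_eq_some hxx ?_
  rw [addY, negAddY, ← hxx, hsl]
  simp only [yOf, negY]
  rw [hY]
  simp only [xOf]
  ring

end

variable (L) in
/-- a point off four countable sets -/
lemma exists_generic (z : ℂ) :
    ∃ u : ℂ, u ∉ L.lattice ∧ u + u ∉ L.lattice ∧ z + u ∉ L.lattice ∧ z - u ∉ L.lattice := by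
  have hc := Fermat.Agent.ProgramR.LevelOne.countable_lattice L
  have h1 : ((fun u : ℂ => u + u) ⁻¹' (L.lattice : Set ℂ)).Countable :=
    hc.preimage (fun a b h => by
      have h' : a + a = b + b := h
      linear_combination (1 / 2 : ℂ) * h')
  have h2 : ((fun u : ℂ => z + u) ⁻¹' (L.lattice : Set ℂ)).Countable :=
    hc.preimage (fun a b h => by
      have h' : z + a = z + b := h
      linear_combination h')
  have h3 : ((fun u : ℂ => z - u) ⁻¹' (L.lattice : Set ℂ)).Countable :=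
    hc.preimage (fun a b h => by
      have h' : z - a = z - b := h
      linear_combination -h')
  have hB := ((hc.union h1).union h2).union h3
  obtain ⟨u, hu⟩ := (hB.dense_compl ℂ).nonempty
  simp only [Set.mem_compl_iff, Set.mem_union, Set.mem_preimage, SetLike.mem_coe, not_or] at hu
  exact ⟨u, hu.1.1.1, hu.1.1.2, hu.1.2, hu.2⟩

section

variable (hΔ : E.Δ ≠ 0) (hg₂ : L.g₂ = E.c₄ / 12) (hg₃ : L.g₃ = E.c₆ / 216)
  (hinj : ∀ z w, z ∉ L.lattice → w ∉ L.lattice → ℘[L] z = ℘[L] w →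
    z - w ∈ L.lattice ∨ z + w ∈ L.lattice)
  (hadd : ∀ z w, z ∉ L.lattice → w ∉ L.lattice → z + w ∉ L.lattice → ℘[L] z ≠ ℘[L] w →
    ℘[L] (z + w) = ((℘'[L] z - ℘'[L] w) / (℘[L] z - ℘[L] w)) ^ 2 / 4 - ℘[L] z - ℘[L] w ∧
    ℘'[L] (z + w) =
      -(((℘'[L] z - ℘'[L] w) / (℘[L] z - ℘[L] w)) * (℘[L] (z + w) - ℘[L] z) + ℘'[L] z))

include hinj hadd

/-- addition for `z, w, z ± w ∉ Λ` -/
lemma Psi_add_of_gen {z w : ℂ} (hz : z ∉ L.lattice) (hw : w ∉ L.lattice)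
    (hp : z + w ∉ L.lattice) (hm : z - w ∉ L.lattice) :
    Psi E L hΔ hg₂ hg₃ (z + w) = Psi E L hΔ hg₂ hg₃ z + Psi E L hΔ hg₂ hg₃ w := by
  have hne : ℘[L] z ≠ ℘[L] w := fun h => (hinj z w hz hw h).elim hm hp
  obtain ⟨hX, hY⟩ := hadd z w hz hw hp hne
  exact Psi_add_of_chord hΔ hg₂ hg₃ hz hw hp hne hX hY

/-- duplication, from the generic case and the group axioms -/
lemma Psi_two_mul {z : ℂ} (hz : z ∉ L.lattice) (h2 : z + z ∉ L.lattice) :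
    Psi E L hΔ hg₂ hg₃ (z + z) = Psi E L hΔ hg₂ hg₃ z + Psi E L hΔ hg₂ hg₃ z := by
  obtain ⟨u, hu, hu2, hzu, hzu'⟩ := exists_generic L z
  have hnu : -u ∉ L.lattice := fun h => hu (by simpa using L.lattice.neg_mem h)
  have e1 : z + z = (z + u) + (z - u) := by ring
  have e2 : z + u - (z - u) = u + u := by ring
  have e3 : z - u = z + -u := by ring
  have e4 : z - -u = z + u := by ring
  have a1 : Psi E L hΔ hg₂ hg₃ (z + z) =
      Psi E L hΔ hg₂ hg₃ (z + u) + Psi E L hΔ hg₂ hg₃ (z - u) := by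
    rw [e1]
    exact Psi_add_of_gen hΔ hg₂ hg₃ hinj hadd hzu hzu' (by rwa [← e1]) (by rwa [e2])
  have a2 : Psi E L hΔ hg₂ hg₃ (z + u) = Psi E L hΔ hg₂ hg₃ z + Psi E L hΔ hg₂ hg₃ u :=
    Psi_add_of_gen hΔ hg₂ hg₃ hinj hadd hz hu hzu hzu'
  have a3 : Psi E L hΔ hg₂ hg₃ (z - u) = Psi E L hΔ hg₂ hg₃ z + -Psi E L hΔ hg₂ hg₃ u := by
    rw [e3, ← Psi_neg]
    exact Psi_add_of_gen hΔ hg₂ hg₃ hinj hadd hz hnu (by rwa [← e3]) (by rwa [e4])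
  rw [a1, a2, a3]
  abel

/-- **additivity of the uniformisation** -/
theorem Psi_add (z w : ℂ) :
    Psi E L hΔ hg₂ hg₃ (z + w) = Psi E L hΔ hg₂ hg₃ z + Psi E L hΔ hg₂ hg₃ w := by
  by_cases hz : z ∈ L.lattice
  · rw [add_comm z w, Psi_add_mem hΔ hg₂ hg₃ hz, Psi_of_mem hΔ hg₂ hg₃ hz, zero_add]
  by_cases hw : w ∈ L.lattice
  · rw [Psi_add_mem hΔ hg₂ hg₃ hw, Psi_of_mem hΔ hg₂ hg₃ hw, add_zero]
  by_cases hp : z + w ∈ L.lattice
  · exact Psi_add_of_add_mem hΔ hg₂ hg₃ hp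
  by_cases hm : z - w ∈ L.lattice
  · -- `w = z - l`
    have hnm : -(z - w) ∈ L.lattice := L.lattice.neg_mem hm
    have e1 : z + w = z + z + -(z - w) := by ring
    have e2 : w = z + -(z - w) := by ring
    have h2 : z + z ∉ L.lattice := fun h => hp (by rw [e1]; exact L.lattice.add_mem h hnm)
    have hw' : Psi E L hΔ hg₂ hg₃ w = Psi E L hΔ hg₂ hg₃ z := by
      conv_lhs => rw [e2]
      exact Psi_add_mem hΔ hg₂ hg₃ hnm z
    rw [hw', e1, Psi_add_mem hΔ hg₂ hg₃ hnm]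
    exact Psi_two_mul hΔ hg₂ hg₃ hinj hadd hz h2
  · exact Psi_add_of_gen hΔ hg₂ hg₃ hinj hadd hz hw hp hm

end

section

variable (hΔ : E.Δ ≠ 0) (hg₂ : L.g₂ = E.c₄ / 12) (hg₃ : L.g₃ = E.c₆ / 216)

/-- surjectivity of `Ψ` from the surjectivity of `℘` -/
lemma Psi_surjective (hsurj : ∀ c : ℂ, ∃ z, z ∉ L.lattice ∧ ℘[L] z = c) :
    Function.Surjective (Psi E L hΔ hg₂ hg₃) := by
  rintro (_ | ⟨x, y, h⟩)
  · exact ⟨0, Psi_of_mem hΔ hg₂ hg₃ L.lattice.zero_mem⟩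
  · obtain ⟨z, hz, hzc⟩ := hsurj (x + E.b₂ / 12)
    have hx : xOf E L z = x := by simp only [xOf, hzc]; ring
    have heq := (equation_iff_short hg₂ hg₃ x y).1 h.1
    have hsq : ℘'[L] z ^ 2 = (2 * y + E.a₁ * x + E.a₃) ^ 2 := by
      rw [heq, L.derivWeierstrassP_sq z hz, hzc]
    rcases sq_eq_sq_iff_eq_or_eq_neg.1 hsq with h1 | h1
    · refine ⟨z, ?_⟩
      rw [Psi_of_not_mem hΔ hg₂ hg₃ hz]
      refine some_eq_some hx ?_
      simp only [yOf, hx, h1]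
      ring
    · refine ⟨-z, ?_⟩
      have hnz : -z ∉ L.lattice := fun h => hz (by simpa using L.lattice.neg_mem h)
      rw [Psi_of_not_mem hΔ hg₂ hg₃ hnz]
      refine some_eq_some (by rw [xOf_neg, hx]) ?_
      simp only [yOf, xOf_neg, hx, L.derivWeierstrassP_neg, h1]
      ring

lemma ptX_Psi {z : ℂ} (hz : z ∉ L.lattice) :
    ptX (Psi E L hΔ hg₂ hg₃ z) = ℘[L] z - E.b₂ / 12 := by
  rw [Psi_of_not_mem hΔ hg₂ hg₃ hz]
  rfl

lemma psi2_Psi {z : ℂ} (hz : z ∉ L.lattice) :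
    psi2 E (Psi E L hΔ hg₂ hg₃ z) = ℘'[L] z := by
  rw [Psi_of_not_mem hΔ hg₂ hg₃ hz]
  simp only [psi2, ptX_some, ptY_some, yOf]
  ring

end

/-- **(U4)** the uniformisation of `E(ℂ)` from the addition theorem of `℘`. -/
theorem exists_unif_of_addition (E : WeierstrassCurve ℂ) (hΔ : E.Δ ≠ 0) (L : PeriodPair)
    (hg₂ : L.g₂ = E.c₄ / 12) (hg₃ : L.g₃ = E.c₆ / 216)
    (hsurj : ∀ c : ℂ, ∃ z, z ∉ L.lattice ∧ ℘[L] z = c)
    (hinj : ∀ z w, z ∉ L.lattice → w ∉ L.lattice → ℘[L] z = ℘[L] w →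
      z - w ∈ L.lattice ∨ z + w ∈ L.lattice)
    (hadd : ∀ z w, z ∉ L.lattice → w ∉ L.lattice → z + w ∉ L.lattice → ℘[L] z ≠ ℘[L] w →
      ℘[L] (z + w) = ((℘'[L] z - ℘'[L] w) / (℘[L] z - ℘[L] w)) ^ 2 / 4 - ℘[L] z - ℘[L] w ∧
      ℘'[L] (z + w) =
        -(((℘'[L] z - ℘'[L] w) / (℘[L] z - ℘[L] w)) * (℘[L] (z + w) - ℘[L] z) + ℘'[L] z)) :
    ∃ Ψ : ℂ →+ E.toAffine.Point, Function.Surjective Ψ ∧ (∀ z, Ψ z = 0 ↔ z ∈ L.lattice) ∧
      ∀ z, z ∉ L.lattice →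
        Dict.ptX (Ψ z) = ℘[L] z - E.b₂ / 12 ∧ Dict.psi2 E (Ψ z) = ℘'[L] z :=
  ⟨AddMonoidHom.mk' (Psi E L hΔ hg₂ hg₃) (Psi_add hΔ hg₂ hg₃ hinj hadd),
    Psi_surjective hΔ hg₂ hg₃ hsurj, Psi_eq_zero_iff hΔ hg₂ hg₃,
    fun _ hz => ⟨ptX_Psi hΔ hg₂ hg₃ hz, psi2_Psi hΔ hg₂ hg₃ hz⟩⟩

/-- helper8's `UnifStmt` from a uniformisation of every complex elliptic curve. -/
theorem unifStmt_of
    (h : ∀ (E : WeierstrassCurve ℂ) (_hΔ : E.Δ ≠ 0),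
      ∃ (L : PeriodPair) (Ψ : ℂ →+ E.toAffine.Point), L.g₂ = E.c₄ / 12 ∧ L.g₃ = E.c₆ / 216 ∧
        Function.Surjective Ψ ∧ (∀ z, Ψ z = 0 ↔ z ∈ L.lattice) ∧
        ∀ z, z ∉ L.lattice →
          Dict.ptX (Ψ z) = ℘[L] z - E.b₂ / 12 ∧ Dict.psi2 E (Ψ z) = ℘'[L] z) :
    Dict.UnifStmt := by
  intro p hp E hΔ Q hQ
  obtain ⟨L, Ψ, hg₂, hg₃, hsurj, hker, hco⟩ := h E hΔ
  obtain ⟨z₀, hz₀⟩ := hsurj Q
  have hmul : ∀ k : ℕ, Ψ ((k : ℂ) * z₀) = k • Q := by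
    intro k
    rw [← nsmul_eq_mul, map_nsmul, hz₀]
  have hmem : ∀ k : ℕ, (k : ℂ) * z₀ ∈ L.lattice ↔ p ∣ k := by
    intro k
    rw [← hker, hmul, ← hQ, addOrderOf_dvd_iff_nsmul_eq_zero]
  refine ⟨L, z₀, hg₂, hg₃, ?_, (hmem p).2 dvd_rfl, ?_⟩
  · intro hz
    have h1 := (hmem 1).1 (by simpa using hz)
    exact hp.out.one_lt.ne' (Nat.dvd_one.1 h1)
  · intro k hk
    have hkz : (k : ℂ) * z₀ ∉ L.lattice := fun h => hk ((hmem k).1 h)
    have := hco _ hkz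
    rwa [hmul] at this

end Fermat.Agent.S15lib.Dict.Unif
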